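import Fermat.Agent.GaloisReps.OfInjective
import Fermat.Agent.FiniteFlat.Injective

/-!
# The models of `J₀(N)`, unconditionally
-/

set_option autoImplicit false

noncomputable section

open Fermat.Agent.EichlerShimura

namespace Fermat.Agent.GaloisReps

/-- The Eichler–Shimura congruences hold on the `p`-power torsion of every `J₀(N)`. -/
theorem congruenceProperty (N p : ℕ) [NeZero N] [Fact p.Prime] : CongruenceProperty N p :=
  congruenceProperty_of_injective (injectiveOnTorsion N)

/-- The model of `J₀(N)` at `p`. -/
def heckeGaloisModel (N p : ℕ) [NeZero N] [Fact p.Prime] : HeckeGaloisModel N p :=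
  modelOfCongruence (congruenceProperty N p)

theorem nonempty_heckeGaloisModel (N p : ℕ) [NeZero N] [Fact p.Prime] :
    Nonempty (HeckeGaloisModel N p) :=
  ⟨heckeGaloisModel N p⟩

end Fermat.Agent.GaloisReps

end
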