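import Fermat.Agent.GaloisReps.Models
import Fermat.Agent.GaloisReps.UnipotentModel
import Fermat.Agent.NewformLocal.Assembly

/-!
# Consequences of the models of `J₀(N)`

The theorems of `GaloisReps` and `NewformLocal` with the model and the congruences supplied.
-/

set_option autoImplicit false

noncomputable section

open Polynomial ModularCurve Fermat.Agent.EichlerShimura
open CongruenceSubgroup ModularFormClass

namespace Fermat.Agent.GaloisReps

/-- Inertia at a good prime fixes the prime to `ℓ` torsion of `J₀(N)`. -/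
theorem inertia_smul_torsion_eq {N ℓ : ℕ} [NeZero N] {A : ValuationSubring (AlgebraicClosure ℚ)}
    (hℓ : ℓ.Prime) (hℓN : ¬ ℓ ∣ N) (hA : A.LiesOverPrime ℓ) {σ : AbsGal}
    (hσ : σ ∈ A.inertiaSubgroupIn ℚ) {m : ℕ} (hm : ¬ ℓ ∣ m) {x : JZero N} (hx : m • x = 0) :
    σ • x = x :=
  inertia_smul_torsion (injectiveOnTorsion N) hℓ hℓN hA hσ hm hx

/-- Eichler–Shimura on the prime to `ℓ` torsion of `J₀(N)`. -/
theorem frobenius_smul_torsion_eq {N ℓ : ℕ} [NeZero N] {A : ValuationSubring (AlgebraicClosure ℚ)}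
    (hℓ : ℓ.Prime) (hℓN : ¬ ℓ ∣ N) (hA : A.LiesOverPrime ℓ) {σ : AbsGal}
    (hσ : A.IsFrobeniusAt σ ℓ) {m : ℕ} (hm : ¬ ℓ ∣ m) {x : JZero N} (hx : m • x = 0) :
    σ • σ • x - heckeOperatorBar N ⟨ℓ, hℓ⟩ (σ • x) + ℓ • x = 0 :=
  frobenius_smul_torsion (injectiveOnTorsion N) hℓ hℓN hA hσ hm hx

/-- The Galois action on the `p`-power torsion of `J₀(N)`. -/
theorem torsionGaloisData (N p : ℕ) [NeZero N] [Fact p.Prime] : TorsionGalois N p :=
  torsionGalois N p (congruenceProperty N p)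

/-- A residual representation attached to every character of the Hecke algebra. -/
theorem exists_residual_of_char {p : ℕ} [Fact p.Prime] {N : ℕ} [NeZero N] {F : Type} [Field F]
    [IsAlgClosed F] [CharP F p] (θbar : FullHecke N →+* F) :
    ∃ ρ : ResidualGaloisRep F,
      (∀ ℓ (hℓ : ℓ.Prime), ¬ ℓ ∣ N * p →
        ∀ A : ValuationSubring (AlgebraicClosure ℚ), A.LiesOverPrime ℓ →
          ∀ σ : AbsGal, A.IsFrobeniusAt σ ℓ →
            LinearMap.charpoly (ρ.ρ σ) =
              X ^ 2 - C (θbar (HeckeDuality.heckeOp N 2 ℓ hℓ)) * X + C ((ℓ : F))) ∧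
      ∀ ℓ : ℕ, ℓ.Prime → ¬ ℓ ∣ N * p → ρ.IsUnramifiedAt ℓ :=
  exists_residual_of_model (heckeGaloisModel N p) θbar

/-- The residual representation attached to an eigenform. -/
theorem exists_residual_isAttachedTo {N : ℕ} {g : CuspForm (Gamma0 N) 2}
    (hg : g.IsNormalizedEigenform) {p : ℕ} (hp : p.Prime) {k : Type} [Field k] [CharP k p]
    (φ : integralClosure ℤ ℂ →+* k) :
    ∃ ρ : ResidualGaloisRep k, ρ.IsAttachedTo g φ ∧
      ∀ ℓ : ℕ, ℓ.Prime → ¬ ℓ ∣ N * p → ρ.IsUnramifiedAt ℓ :=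
  exists_residual_eigenform nonempty_heckeGaloisModel hg hp φ

/-- The attachment for the Frey curve at every level. -/
theorem eigenformResidualAttachmentAt (P : FreyPackage) (M : ℕ) (hM : 0 < M) :
    P.EigenformResidualAttachmentAt M :=
  eigenformResidualAttachment nonempty_heckeGaloisModel P M hM

section Datum

variable {p : ℕ} [Fact p.Prime] {N : ℕ} [NeZero N] {S : Finset ℕ}
  {O : Type} [CommRing O] [IsDomain O] [IsDiscreteValuationRing O]
  [IsAdicComplete (IsLocalRing.maximalIdeal O) O]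
  {θ : CuspForm.heckeAlgebra N 2 (↑S : Set ℕ) →+* IsLocalRing.ResidueField O}
  {T : Type} [CommRing T] [IsLocalRing T] [IsNoetherianRing T]
  [IsAdicComplete (IsLocalRing.maximalIdeal T) T] [Algebra O T] [IsLocalHom (algebraMap O T)]
  [Module.Finite O T] [Module.Free O T]

/-- A datum is unramified outside its finite set. -/
theorem datum_isUnramifiedAt (hpO : (p : O) ∈ IsLocalRing.maximalIdeal O) (hpS : p ∈ S)
    (hNS : ∀ q : ℕ, q.Prime → q ∣ N → q ∈ S)
    (H : CuspForm.HeckeGaloisRepDatum N (↑S : Set ℕ) O θ T)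
    (q : ℕ) (hq : q.Prime) (hqS : q ∉ S) : H.ρ.IsUnramifiedAt q :=
  isUnramifiedAt_of_model (heckeGaloisModel N p) hpO hpS hNS H q hq hqS

/-- A datum is unipotent on inertia at `q` once the torsion of `J₀(N)` is. -/
theorem datum_isUnipotentOnInertiaAt (hpO : (p : O) ∈ IsLocalRing.maximalIdeal O)
    (H : CuspForm.HeckeGaloisRepDatum N (↑S : Set ℕ) O θ T) {q : ℕ} (hq : q.Prime) (hqp : q ≠ p)
    (h : TorsionUnipotentAt N q) : H.ρ.IsUnipotentOnInertiaAt q :=
  isUnipotentOnInertiaAt_of_model (heckeGaloisModel N p) hpO H q hq hqp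
    (unipotentAt_modelOfCongruence (congruenceProperty N p) hq hqp h)

/-- A datum is flat at `p` once the levels of the torsion of `J₀(N)` lie in Galois orders. -/
theorem datum_isFlatAt [Finite (IsLocalRing.ResidueField O)]
    (hpO : (p : O) ∈ IsLocalRing.maximalIdeal O)
    (H : CuspForm.HeckeGaloisRepDatum N (↑S : Set ℕ) O θ T)
    (hJ : ∀ M, ∃ (X : Type) (_ : AddCommGroup X) (_ : DistribMulAction AbsGal X)
      (i : JTors N p M →+ X), Function.Injective i ∧
        (∀ σ x, i (galTors M σ x) = σ • i x) ∧ Nonempty (FiniteFlat.GalOrder p X)) :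
    H.ρ.IsFlatAt p :=
  isFlatAt_of_congruence (congruenceProperty N p) hpO H hJ

end Datum

/-- Inertia at `q` is unipotent on the model once it is on the torsion of `J₀(N)`. -/
theorem unipotentAt_heckeGaloisModel {N p q : ℕ} [NeZero N] [Fact p.Prime] (hq : q.Prime)
    (hqp : q ≠ p) (h : TorsionUnipotentAt N q) :
    NewformLocal.UnipotentAt (heckeGaloisModel N p) q :=
  unipotentAt_modelOfCongruence (congruenceProperty N p) hq hqp h

/-- The local inputs of `NewformLocal.exists_rep_of_models` on the model of `J₀(N)`. -/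
theorem exists_model_local
    (hU : ∀ (N : ℕ) [NeZero N] (q : ℕ), q.Prime → q ∣ N → ¬ q ^ 2 ∣ N → TorsionUnipotentAt N q)
    (hT : ∀ (N p : ℕ) [NeZero N] [Fact p.Prime] (q : ℕ), q.Prime → q ≠ p → q ∣ N → ¬ q ^ 2 ∣ N →
      NewformLocal.ToricSquareAt (heckeGaloisModel N p) q) :
    ∀ (N p : ℕ) [NeZero N] [Fact p.Prime], ∃ D : HeckeGaloisModel N p,
      ∀ q : ℕ, q.Prime → q ≠ p → q ∣ N → ¬ q ^ 2 ∣ N →
        NewformLocal.UnipotentAt D q ∧ NewformLocal.ToricSquareAt D q :=
  fun N p _ _ => ⟨heckeGaloisModel N p, fun q hq hqp hqN hq2 =>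
    ⟨unipotentAt_heckeGaloisModel hq hqp (hU N q hq hqN hq2), hT N p q hq hqp hqN hq2⟩⟩

end Fermat.Agent.GaloisReps

end
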